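import Fermat.Agent.PeterssonTrace.Bessel
import Fermat.Agent.Poincare.LevelOne
import Fermat.Agent.VerticalSatoTate.Main

/-!
# Petersson's trace formula

Expand `P_m` in an orthonormal basis and compare with its `n`-th coefficient.
-/

set_option autoImplicit false
set_option linter.style.haveILetI false

noncomputable section

namespace FA.PeterssonTrace

open UpperHalfPlane hiding I
open Complex CongruenceSubgroup
open scoped MatrixGroups Real Nat ComplexConjugate

variable {N : ℕ}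

theorem klSum_comm {r : ℕ} [NeZero r] (a b : ZMod r) :
    HooleyRoots.klSum r a b = HooleyRoots.klSum r b a := by
  refine Fintype.sum_equiv (Equiv.inv (ZMod r)ˣ) _ _ fun x => ?_
  simp [add_comm]

theorem coeff_poincare_eq_sum [NeZero N] {k : ℤ} (hk : 3 ≤ k) {m : ℕ} (hm : m ≠ 0) {d : ℕ}
    {e : Fin d → CuspForm (Gamma0 N) k}
    (horth : ∀ i i', Poincare.pairing (e i) (e i') = if i = i' then 1 else 0)
    (hspan : Submodule.span ℂ (Set.range e) = ⊤) (n : ℕ) :
    (qExpansion 1 (Poincare.cuspForm N hk hm)).coeff n =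
      ((2 * ((1 / (4 * π * m)) ^ ((k : ℝ) - 1) * Real.Gamma (k - 1)) : ℝ) : ℂ) *
        ∑ i, conj ((qExpansion 1 (e i)).coeff m) * (qExpansion 1 (e i)).coeff n := by
  rw [← VerticalSatoTate.coeffAt_apply n,
    VerticalSatoTate.pairing_expand horth hspan (Poincare.cuspForm N hk hm)]
  simp only [map_sum, map_smul, smul_eq_mul, Finset.mul_sum]
  refine Finset.sum_congr rfl fun i _ => ?_
  rw [← Poincare.pairing_symm (e i), Poincare.pairing_poincare hk hm, map_mul,
    Complex.conj_ofReal, VerticalSatoTate.coeffAt_apply, mul_assoc]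

theorem neg_I_pow {k : ℕ} (he : Even k) : (-I) ^ k = I ^ k := he.neg_pow I

theorem trace_formula [NeZero N] {k : ℕ} (hk : 4 ≤ k) (he : Even k) {m n : ℕ} (hm : m ≠ 0)
    (hn : n ≠ 0) {d : ℕ} {e : Fin d → CuspForm (Gamma0 N) k}
    (horth : ∀ i i', Poincare.pairing (e i) (e i') = if i = i' then 1 else 0)
    (hspan : Submodule.span ℂ (Set.range e) = ⊤) :
    HasSum (fun c : Poincare.moduli N => 2 * π * I ^ k *
        (HooleyRoots.klSum c (m : ZMod c) (n : ZMod c) / (c : ℕ) *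
          (besselJ (k - 1) (4 * π * √((m : ℝ) * n) / (c : ℕ)) : ℂ)))
      ((((k - 2)! / (4 * π * √((m : ℝ) * n)) ^ (k - 1) : ℝ) : ℂ) *
          ∑ i, conj ((qExpansion 1 (e i)).coeff m) * (qExpansion 1 (e i)).coeff n -
        if m = n then 1 else 0) := by
  have hk3 : (3 : ℤ) ≤ (k : ℤ) := by omega
  have hkZ : Even (k : ℤ) := (Int.even_coe_nat k).2 he
  have hm' : (0 : ℝ) < √m := Real.sqrt_pos.2 (by exact_mod_cast hm.bot_lt)
  have hn' : (0 : ℝ) < √n := Real.sqrt_pos.2 (by exact_mod_cast hn.bot_lt)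
  set R : ℝ := (√m / √n) ^ (k - 1) / 2 with hR
  have h := (Poincare.coefficient (N := N) hk3 hm n (y := 1) one_pos).mul_left (R : ℂ)
  rw [coeff_poincare_eq_sum hk3 hm horth hspan, hkZ.neg_one_zpow,
    show (1 : ℂ) + 1 = 2 by norm_num] at h
  have hval : (R : ℂ) *
      (((2 * ((1 / (4 * π * m)) ^ (((k : ℤ) : ℝ) - 1) * Real.Gamma (((k : ℤ) : ℝ) - 1)) : ℝ) : ℂ) *
        ∑ i, conj ((qExpansion 1 (e i)).coeff m) * (qExpansion 1 (e i)).coeff n -
      2 * if m = n then 1 else 0) =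
      (((k - 2)! / (4 * π * √((m : ℝ) * n)) ^ (k - 1) : ℝ) : ℂ) *
          ∑ i, conj ((qExpansion 1 (e i)).coeff m) * (qExpansion 1 (e i)).coeff n -
        if m = n then 1 else 0 := by
    have hC : R * (2 * ((1 / (4 * π * m)) ^ (((k : ℤ) : ℝ) - 1) *
        Real.Gamma (((k : ℤ) : ℝ) - 1))) = (k - 2)! / (4 * π * √((m : ℝ) * n)) ^ (k - 1) := by
      have h1 : ((k : ℤ) : ℝ) - 1 = ((k - 1 : ℕ) : ℝ) := by
        rw [Nat.cast_sub (by omega), Int.cast_natCast, Nat.cast_one]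
      have h2 : Real.Gamma ((k - 1 : ℕ) : ℝ) = (k - 2)! := by
        rw [show k - 1 = k - 2 + 1 by omega, Nat.cast_add_one, Real.Gamma_nat_eq_factorial]
      rw [h1, h2, Real.rpow_natCast, hR, Real.sqrt_mul (Nat.cast_nonneg m),
        show ((m : ℝ)) = √m * √m from (Real.mul_self_sqrt (Nat.cast_nonneg m)).symm]
      simp only [div_pow, mul_pow, one_pow, Real.sqrt_mul_self hm'.le]
      field_simp
    rw [mul_sub, ← mul_assoc, ← Complex.ofReal_mul, hC]
    split_ifs with hmn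
    · subst hmn
      simp [hR, div_self hm'.ne']
    · simp
  rw [hval] at h
  refine h.congr_fun fun c => ?_
  have hc : ((c : ℕ) : ℂ) ≠ 0 := Nat.cast_ne_zero.2 (NeZero.ne _)
  rw [lineIntegral_eq_besselJ (by omega) hm hn (NeZero.ne _) one_pos, klSum_comm (n : ZMod c),
    neg_I_pow he, hR]
  have hm0 : ((√m : ℝ) : ℂ) ≠ 0 := Complex.ofReal_ne_zero.2 hm'.ne'
  have hn0 : ((√n : ℝ) : ℂ) ≠ 0 := Complex.ofReal_ne_zero.2 hn'.ne'
  push_cast
  rw [zpow_neg, zpow_natCast, div_pow, div_pow]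
  rw [show ((c : ℕ) : ℂ) ^ k = ((c : ℕ) : ℂ) ^ (k - 1) * (c : ℕ) by
    rw [← pow_succ, Nat.sub_add_cancel (by omega : 1 ≤ k)]]
  field_simp

/-- The positive integers are the moduli of level one. -/
def moduliOne : ℕ+ ≃ Poincare.moduli 1 where
  toFun c := ⟨c, c.pos, one_dvd _⟩
  invFun c := ⟨c, c.2.1⟩
  left_inv _ := rfl
  right_inv _ := rfl

theorem exists_orthonormal_deltaOne :
    ∃ r : ℝ, 0 < r ∧ Poincare.pairing Poincare.deltaOne Poincare.deltaOne = ((r ^ 2 : ℝ) : ℂ) ∧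
      (∀ i i' : Fin 1, Poincare.pairing ((r⁻¹ : ℂ) • Poincare.deltaOne)
        ((r⁻¹ : ℂ) • Poincare.deltaOne) = if i = i' then 1 else 0) ∧
      Submodule.span ℂ (Set.range fun _ : Fin 1 => (r⁻¹ : ℂ) • Poincare.deltaOne) = ⊤ := by
  set D := Poincare.deltaOne
  obtain ⟨P, hP⟩ : ∃ P : ℝ, Poincare.pairing D D = (P : ℂ) := ⟨_, Poincare.pairing_self D⟩
  have hP0 : 0 ≤ P := by
    have h := (Poincare.pairingCore (N := 1) (k := 12)).re_inner_nonneg D
    change 0 ≤ RCLike.re (Poincare.pairing D D) at h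
    simpa [hP] using h
  have hne : P ≠ 0 := by
    intro h0
    have hD := Poincare.pairing_definite D (by rw [hP, h0, Complex.ofReal_zero])
    have h1 : (qExpansion 1 (D : ℍ → ℂ)).coeff 1 = 1 :=
      ModularForm.discriminant_qExpansion_coeff_one
    rw [hD, ← VerticalSatoTate.coeffAt_apply, map_zero] at h1
    exact zero_ne_one h1
  have hr : 0 < √P := Real.sqrt_pos.2 (lt_of_le_of_ne hP0 hne.symm)
  have hrC : ((√P : ℝ) : ℂ) ≠ 0 := Complex.ofReal_ne_zero.2 hr.ne'
  refine ⟨√P, hr, by rw [Real.sq_sqrt hP0, hP], fun i i' => ?_, ?_⟩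
  · rw [Poincare.pairing_smul_left, ← Poincare.pairing_symm D, Poincare.pairing_smul_left,
      map_mul, Poincare.pairing_symm, hP, if_pos (Subsingleton.elim i i')]
    simp only [map_inv₀, Complex.conj_ofReal]
    rw [← mul_assoc, ← mul_inv, ← Complex.ofReal_mul, Real.mul_self_sqrt hP0,
      inv_mul_cancel₀ (Complex.ofReal_ne_zero.2 hne)]
  · refine eq_top_iff.2 fun f _ => ?_
    obtain ⟨c, rfl⟩ := Poincare.exists_eq_smul_deltaOne f
    have h := Submodule.smul_mem _ (c * ((√P : ℝ) : ℂ)) (Submodule.subset_span (R := ℂ)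
      (s := Set.range fun _ : Fin 1 => (((√P : ℝ) : ℂ)⁻¹) • D) ⟨0, rfl⟩)
    rwa [smul_smul, mul_assoc, mul_inv_cancel₀ hrC, mul_one] at h

theorem tau_formula {n : ℕ} (hn : n ≠ 0) :
    HasSum (fun c : ℕ+ => 2 * π * (HooleyRoots.klSum c (1 : ZMod c) (n : ZMod c) / (c : ℕ) *
        (besselJ 11 (4 * π * √(n : ℝ) / (c : ℕ)) : ℂ)))
      ((((10)! : ℂ) / (((4 * π * √(n : ℝ)) ^ 11 : ℝ) *
          Poincare.pairing Poincare.deltaOne Poincare.deltaOne)) *
          (qExpansion 1 ModularForm.discriminant).coeff n -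
        if n = 1 then 1 else 0) := by
  obtain ⟨r, hr, hrD, horth, hspan⟩ := exists_orthonormal_deltaOne
  have h := moduliOne.hasSum_iff.2 (trace_formula (N := 1) (k := 12) (by norm_num) (by decide)
    one_ne_zero hn (e := fun _ : Fin 1 => (r⁻¹ : ℂ) • Poincare.deltaOne) horth hspan)
  have hI : I ^ 12 = (1 : ℂ) := by rw [show 12 = 2 * 6 from rfl, pow_mul, Complex.I_sq]; norm_num
  have hval : ((((12 - 2)! / (4 * π * √(((1 : ℕ) : ℝ) * n)) ^ (12 - 1) : ℝ) : ℂ) *
        ∑ _i : Fin 1, conj ((qExpansion 1 (((r⁻¹ : ℂ) • Poincare.deltaOne :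
          CuspForm (Gamma0 1) 12) : ℍ → ℂ)).coeff 1) *
          (qExpansion 1 (((r⁻¹ : ℂ) • Poincare.deltaOne :
            CuspForm (Gamma0 1) 12) : ℍ → ℂ)).coeff n -
        if 1 = n then 1 else 0) =
      (((10)! : ℂ) / (((4 * π * √(n : ℝ)) ^ 11 : ℝ) *
          Poincare.pairing Poincare.deltaOne Poincare.deltaOne)) *
          (qExpansion 1 ModularForm.discriminant).coeff n -
        if n = 1 then 1 else 0 := by
    simp only [← VerticalSatoTate.coeffAt_apply, map_smul, smul_eq_mul, Fin.sum_univ_one]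
    simp only [VerticalSatoTate.coeffAt_apply]
    have h1 : (qExpansion 1 (Poincare.deltaOne : ℍ → ℂ)).coeff 1 = 1 :=
      ModularForm.discriminant_qExpansion_coeff_one
    have hrC : (r : ℂ) ≠ 0 := Complex.ofReal_ne_zero.2 hr.ne'
    have hd : (Poincare.deltaOne : ℍ → ℂ) = ModularForm.discriminant := rfl
    rw [h1, hd, hrD, mul_one, map_inv₀, Complex.conj_ofReal, Nat.cast_one, one_mul]
    simp only [eq_comm (a := 1) (b := n)]
    push_cast
    field_simp
  rw [hval] at h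
  refine h.congr_fun fun c => ?_
  simp only [Function.comp_apply, hI, Nat.cast_one, one_mul, mul_one]
  rfl

end FA.PeterssonTrace

end
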