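import Fermat.Agent.Poincare.Bound
import Mathlib.NumberTheory.ModularForms.EisensteinSeries.QExpansion
import Mathlib.Analysis.SpecialFunctions.Exp

/-!
# The Bessel function of the first kind and the integral in the coefficient formula

`J_ν(x) = ∑ (-1)^l (x/2)^(2l+ν) / (l! (l+ν)!)`, and for `k ≥ 3`, `m, n ≥ 1` and `y > 0` the line
integral is `2π (-i)^k (√n/√m)^(k-1) c^(k-1) J_{k-1}(4π√(mn)/c)`: expand `e(-m/(c²τ))` in powers
of `1/τ`, and read `∫ τ^(-s) e(-nτ) dτ` off the Lipschitz formula for `∑_j (τ + j)^(-s)`.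
-/

set_option autoImplicit false

noncomputable section

namespace FA.PeterssonTrace

open UpperHalfPlane hiding I
open Complex MeasureTheory Filter Set
open scoped Real Topology Nat

/-- The Bessel function of the first kind of integral order. -/
def besselJ (ν : ℕ) (x : ℝ) : ℝ :=
  ∑' l : ℕ, (-1) ^ l * (x / 2) ^ (2 * l + ν) / (l ! * (l + ν)!)

theorem hasSum_besselJ (ν : ℕ) (x : ℝ) :
    HasSum (fun l : ℕ => (-1) ^ l * (x / 2) ^ (2 * l + ν) / (l ! * (l + ν)!)) (besselJ ν x) := by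
  refine Summable.hasSum (Summable.of_norm_bounded
    ((Real.summable_pow_div_factorial ((x / 2) ^ 2)).mul_left (|x / 2| ^ ν)) fun l => ?_)
  rw [Real.norm_eq_abs, abs_div, abs_mul, abs_pow, abs_neg, abs_one, one_pow, one_mul, abs_pow,
    abs_of_pos (by positivity : (0 : ℝ) < l ! * (l + ν)!), pow_add, pow_mul, sq_abs,
    mul_comm _ (|x / 2| ^ ν), ← mul_div_assoc]
  gcongr
  exact le_mul_of_one_le_right (by positivity) (by exact_mod_cast Nat.factorial_pos _)

/-! ## The integral of `τ ^ (-s) e(-n τ)` -/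

theorem profile_zero_add_int (s n : ℕ) (y x : ℝ) (j : ℤ) :
    Poincare.profile (s : ℤ) 0 n 1 y (x + j) =
      cexp (-(2 * π * I * n * Poincare.pt x y)) * (1 / (Poincare.pt x y + j) ^ s) := by
  have h : Poincare.pt (x + j) y = Poincare.pt x y + j := by
    simp [Poincare.pt]
    ring
  rw [Poincare.profile, h, zpow_neg, zpow_natCast, one_div, mul_comm, Nat.cast_zero, zero_div,
    zero_add, mul_add]
  congr 1
  rw [Complex.exp_eq_exp_iff_exists_int]
  exact ⟨-(n * j), by push_cast; ring⟩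

theorem lineIntegral_pow {s : ℕ} (hs : 3 ≤ s) (n : ℕ) {y : ℝ} (hy : 0 < y) :
    Poincare.lineIntegral (s : ℤ) 0 n 1 y =
      (-2 * π * I) ^ s / (s - 1)! * (n : ℂ) ^ (s - 1) := by
  obtain ⟨t, rfl⟩ : ∃ t, s = t + 1 := ⟨s - 1, by omega⟩
  rw [Nat.add_sub_cancel]
  set E : ℝ → ℂ := fun x => cexp (-(2 * π * I * n * Poincare.pt x y)) with hE
  set q : ℝ → ℂ := fun x => cexp (2 * π * I * Poincare.pt x y) with hq
  set K : ℂ := (-2 * π * I) ^ (t + 1) / t ! with hK
  have hptc : Continuous fun x : ℝ => Poincare.pt x y := by unfold Poincare.pt; fun_prop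
  have hEc : Continuous E := by fun_prop
  have hqc : Continuous q := by fun_prop
  have hEn : ∀ x, ‖E x‖ = Real.exp (2 * π * n * y) := fun x => by
    simp [hE, Complex.norm_exp, Poincare.pt, mul_re, mul_im]
  have hqn : ∀ x, ‖q x‖ = Real.exp (-(2 * π * y)) := fun x => by
    simp [hq, Complex.norm_exp, Poincare.pt, mul_re, mul_im]
  have hsum : HasSum (fun j : ℤ => ∫ x in (0 : ℝ)..1, E x * (1 / (Poincare.pt x y + j) ^ (t + 1)))
      (Poincare.lineIntegral ((t + 1 : ℕ) : ℤ) 0 n 1 y) := by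
    have hi : Integrable (Poincare.profile ((t + 1 : ℕ) : ℤ) 0 n 1 y) :=
      Poincare.integrable_profile (by omega) 0 n one_ne_zero hy
    refine hi.hasSum_intervalIntegral_comp_add_int.congr_fun fun j => ?_
    exact intervalIntegral.integral_congr fun x _ => (profile_zero_add_int _ n y x j).symm
  set B := EisensteinSeries.r ⟨⟨1, y⟩, hy⟩ with hB
  have hv : Function.Injective fun j : ℤ => (![1, j] : Fin 2 → ℤ) := fun a b h => by
    simpa using congrFun h 1
  have hbound : Summable fun j : ℤ =>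
      Real.exp (2 * π * n * y) * (B ^ (-((t + 1 : ℕ) : ℝ)) * ‖![1, j]‖ ^ (-((t + 1 : ℕ) : ℝ))) :=
    (((EisensteinSeries.summable_one_div_norm_rpow (by
      have : (3 : ℝ) ≤ (t + 1 : ℕ) := by exact_mod_cast hs
      linarith)).comp_injective hv).mul_left _).mul_left _
  have hterm : ∀ (j : ℤ) (x : ℝ), x ∈ Set.uIoc (0 : ℝ) 1 →
      ‖E x * (1 / (Poincare.pt x y + j) ^ (t + 1))‖ ≤
        Real.exp (2 * π * n * y) *
          (B ^ (-((t + 1 : ℕ) : ℝ)) * ‖![1, j]‖ ^ (-((t + 1 : ℕ) : ℝ))) := by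
    intro j x hx
    rw [uIoc_of_le zero_le_one] at hx
    rw [norm_mul, hEn]
    refine mul_le_mul_of_nonneg_left ?_ (Real.exp_nonneg _)
    have hmem : ofComplex (Poincare.pt x y) ∈ verticalStrip (1 : ℝ) y := by
      rw [ofComplex_apply_of_im_pos (by simpa [Poincare.pt] using hy)]
      constructor
      · simp [UpperHalfPlane.re, Poincare.pt, abs_le]
        exact ⟨by linarith [hx.1], hx.2⟩
      · simp [UpperHalfPlane.im, Poincare.pt]
    have h := EisensteinSeries.summand_bound_of_mem_verticalStrip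
      (k := ((t + 1 : ℕ) : ℝ)) (Nat.cast_nonneg _) ![1, j] hy hmem
    rw [ofComplex_apply_of_im_pos (by simpa [Poincare.pt] using hy)] at h
    refine le_of_eq_of_le ?_ h
    simp only [Matrix.cons_val_zero, Matrix.cons_val_one, Int.cast_one, one_mul]
    rw [Real.rpow_neg (norm_nonneg _), Real.rpow_natCast, norm_div, norm_one, norm_pow, one_div]
  have hlim : HasSum (fun j : ℤ => ∫ x in (0 : ℝ)..1, E x * (1 / (Poincare.pt x y + j) ^ (t + 1)))
      (∫ x in (0 : ℝ)..1, E x * (K * ∑' r : ℕ, (r : ℂ) ^ t * q x ^ r)) := by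
    refine intervalIntegral.hasSum_integral_of_dominated_convergence
      (fun j _ => Real.exp (2 * π * n * y) *
        (B ^ (-((t + 1 : ℕ) : ℝ)) * ‖![1, j]‖ ^ (-((t + 1 : ℕ) : ℝ))))
      (fun j => ?_) (fun j => Eventually.of_forall (hterm j))
      (Eventually.of_forall fun _ _ => hbound) intervalIntegrable_const
      (Eventually.of_forall fun x hx => ?_)
    · refine (hEc.mul (continuous_const.div ((hptc.add continuous_const).pow _) fun x => ?_))
        |>.aestronglyMeasurable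
      refine pow_ne_zero _ fun h => ?_
      simpa [Poincare.pt, hy.ne'] using congrArg Complex.im h
    · have h := (Summable.of_norm_bounded hbound fun j => hterm j x hx).hasSum
      rw [tsum_mul_left] at h
      have hid := EisensteinSeries.qExpansion_identity (k := t) (by omega)
        ⟨Poincare.pt x y, by simpa [Poincare.pt] using hy⟩
      rw [hid] at h
      exact h
  have hgeo : Summable fun r : ℕ =>
      Real.exp (2 * π * n * y) * ((r : ℝ) ^ t * Real.exp (-(2 * π * y)) ^ r) := by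
    refine (Summable.congr (Real.summable_pow_mul_exp_neg_nat_mul t
      (r := 2 * π * y) (by positivity)) fun r => ?_).mul_left _
    rw [← Real.exp_nat_mul]
    ring_nf
  have horth : ∀ r : ℕ, (∫ x in (0 : ℝ)..1, E x * ((r : ℂ) ^ t * q x ^ r)) =
      if r = n then (n : ℂ) ^ t else 0 := by
    intro r
    have he : ∀ x : ℝ, E x * ((r : ℂ) ^ t * q x ^ r) =
        (r : ℂ) ^ t * (cexp ((2 * π * I * ((r : ℂ) - n)) * x) *
          cexp (2 * π * I * ((r : ℂ) - n) * (y * I))) := by
      intro x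
      rw [hE, hq, ← Complex.exp_nat_mul, mul_left_comm, ← Complex.exp_add, ← Complex.exp_add,
        Poincare.pt]
      congr 2
      ring
    simp only [he, intervalIntegral.integral_const_mul, intervalIntegral.integral_mul_const]
    split_ifs with h
    · simp [h]
    · rw [integral_exp_mul_complex (mul_ne_zero (by simp [Real.pi_ne_zero])
        (sub_ne_zero.2 (by exact_mod_cast h))),
        show (2 * π * I * ((r : ℂ) - n)) * ((1 : ℝ) : ℂ) =
          ((((r : ℤ) - n : ℤ)) : ℂ) * (2 * π * I) by push_cast; ring,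
        Complex.exp_int_mul_two_pi_mul_I]
      simp
  have hfour : HasSum (fun r : ℕ => ∫ x in (0 : ℝ)..1, E x * ((r : ℂ) ^ t * q x ^ r))
      (∫ x in (0 : ℝ)..1, E x * ∑' r : ℕ, (r : ℂ) ^ t * q x ^ r) := by
    refine intervalIntegral.hasSum_integral_of_dominated_convergence
      (fun r _ => Real.exp (2 * π * n * y) * ((r : ℝ) ^ t * Real.exp (-(2 * π * y)) ^ r))
      (fun r => (hEc.mul (continuous_const.mul (hqc.pow r))).aestronglyMeasurable)
      (fun r => Eventually.of_forall fun x _ => le_of_eq ?_)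
      (Eventually.of_forall fun _ _ => hgeo) intervalIntegrable_const
      (Eventually.of_forall fun x _ => ?_)
    · simp [hEn, hqn]
    · rw [← tsum_mul_left]
      exact (Summable.of_norm_bounded hgeo fun r => le_of_eq (by simp [hEn, hqn])).hasSum
  have hn' := hfour.tsum_eq
  simp only [horth, tsum_ite_eq] at hn'
  rw [hsum.unique hlim]
  simp only [mul_left_comm _ K, intervalIntegral.integral_const_mul, ← hn']

/-! ## The Bessel function -/

/-- `τ ^ (-k) e(-a / τ - x τ)` at `τ = u + i y`. -/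
def realProfile (k : ℕ) (a x y u : ℝ) : ℂ :=
  Poincare.pt u y ^ (-(k : ℤ)) *
    cexp (-(2 * π * I * (a / Poincare.pt u y + x * Poincare.pt u y)))

theorem profile_eq_realProfile (k m n c : ℕ) (y : ℝ) :
    Poincare.profile (k : ℤ) m n c y = realProfile k ((m : ℝ) / (c : ℝ) ^ 2) n y := by
  funext u
  rw [Poincare.profile, realProfile]
  push_cast
  rw [div_div]

theorem integral_realProfile_scale (k : ℕ) (hk : 1 ≤ k) (a : ℝ) {x : ℝ} (hx : 0 < x) (y : ℝ) :
    ∫ u, realProfile k a x y u = (x : ℂ) ^ (k - 1) * ∫ u, realProfile k (a * x) 1 (x * y) u := by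
  have hxC : (x : ℂ) ≠ 0 := Complex.ofReal_ne_zero.2 hx.ne'
  have e : ∀ u, realProfile k a x y u = (x : ℂ) ^ k * realProfile k (a * x) 1 (x * y) (u * x) := by
    intro u
    have hpt : Poincare.pt (u * x) (x * y) = x * Poincare.pt u y := by
      simp [Poincare.pt]
      ring
    rw [realProfile, realProfile, hpt, mul_zpow, ← mul_assoc, ← mul_assoc, ← zpow_natCast,
      ← zpow_add₀ hxC, add_neg_cancel, zpow_zero, one_mul]
    congr 3
    push_cast
    field_simp
  simp only [e, integral_const_mul]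
  rw [Measure.integral_comp_mul_right (realProfile k (a * x) 1 (x * y)), abs_of_pos (inv_pos.2 hx),
    Complex.real_smul, ← mul_assoc]
  congr 1
  obtain ⟨j, rfl⟩ : ∃ j, k = j + 1 := ⟨k - 1, by omega⟩
  rw [Nat.add_sub_cancel, pow_succ]
  push_cast
  field_simp

theorem integral_realProfile_one {k : ℕ} (hk : 3 ≤ k) {A : ℝ} (hA : 0 < A) {y : ℝ} (hy : 0 < y) :
    ∫ u, realProfile k A 1 y u =
      2 * π * (-I) ^ k * (((1 / √A) ^ (k - 1) * besselJ (k - 1) (4 * π * √A) : ℝ) : ℂ) := by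
  obtain ⟨ν, rfl⟩ : ∃ ν, k = ν + 1 := ⟨k - 1, by omega⟩
  rw [Nat.add_sub_cancel]
  set w : ℂ := -(2 * π * I * A) with hw
  set F : ℕ → ℝ → ℂ :=
    fun l u => w ^ l / l ! * Poincare.profile ((ν + 1 + l : ℕ) : ℤ) 0 1 1 y u with hF
  have hser : ∀ u : ℝ, HasSum (fun l => F l u) (realProfile (ν + 1) A 1 y u) := by
    intro u
    set τ := Poincare.pt u y with hτ
    have hτ0 : τ ≠ 0 := Poincare.pt_ne_zero hy
    have h := ((NormedSpace.expSeries_div_hasSum_exp (w / τ)).mul_left
      (cexp (-(2 * π * I * τ)) * τ ^ (-((ν + 1 : ℕ) : ℤ))))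
    rw [← Complex.exp_eq_exp_ℂ] at h
    have hexp : cexp (-(2 * π * I * τ)) * τ ^ (-((ν + 1 : ℕ) : ℤ)) * cexp (w / τ) =
        realProfile (ν + 1) A 1 y u := by
      rw [realProfile, ← hτ, mul_comm (cexp _) (τ ^ _), mul_assoc, ← Complex.exp_add]
      congr 2
      rw [hw, Complex.ofReal_one]
      field_simp
      ring
    rw [hexp] at h
    refine h.congr_fun fun l => ?_
    simp only [hF, Poincare.profile, ← hτ, Nat.cast_zero, zero_div, zero_add, Nat.cast_one,
      one_mul, zpow_neg, zpow_natCast, pow_add, mul_inv, div_pow]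
    ring
  have hint : ∀ l, Integrable (F l) := fun l =>
    (Poincare.integrable_profile (by omega) 0 1 one_ne_zero hy).const_mul _
  have hnorm : Summable fun l => ∫ u, ‖F l u‖ := by
    refine ((Real.summable_pow_div_factorial (‖w‖ / y)).mul_left
      (Real.exp (2 * π * (1 : ℕ) * y) * π * y ^ (1 - ((ν + 1 : ℕ) : ℝ)))).of_nonneg_of_le
      (fun l => integral_nonneg fun x => norm_nonneg _) fun l => ?_
    refine (integral_mono_of_nonneg (Eventually.of_forall fun x => norm_nonneg _)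
      (((Poincare.integrable_inv_sq_add_sq hy).const_mul _).const_mul _ |>.const_mul _)
      (Eventually.of_forall fun x => (norm_mul_le _ _).trans (mul_le_mul_of_nonneg_left
        (Poincare.norm_profile_le (by omega) 0 1 1 hy x) (norm_nonneg _)))).trans_eq ?_
    simp only [integral_const_mul, Poincare.integral_inv_sq_add_sq hy]
    rw [norm_div, norm_pow, Complex.norm_natCast,
      show (2 - (((ν + 1 + l : ℕ) : ℤ) : ℝ)) = (1 - ((ν + 1 : ℕ) : ℝ)) + (1 - (l : ℝ)) by
        push_cast; ring,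
      Real.rpow_add hy, Real.rpow_sub hy 1 (l : ℝ), Real.rpow_one, Real.rpow_natCast, div_pow]
    field_simp
  have h1 := hasSum_integral_of_summable_integral_norm hint hnorm
  rw [show (∫ u, ∑' l, F l u) = ∫ u, realProfile (ν + 1) A 1 y u from
    integral_congr_ae (Eventually.of_forall fun u => (hser u).tsum_eq)] at h1
  have hA' : (0 : ℝ) < √A := Real.sqrt_pos.2 hA
  refine h1.unique ?_
  have h2 := ((Complex.hasSum_ofReal.2 (hasSum_besselJ ν (4 * π * √A))).mul_left
    (2 * π * (-I) ^ (ν + 1) * (((1 / √A) ^ ν : ℝ) : ℂ)))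
  rw [show (2 * π * (-I) ^ (ν + 1) * (((1 / √A) ^ ν * besselJ ν (4 * π * √A) : ℝ) : ℂ)) =
      2 * π * (-I) ^ (ν + 1) * (((1 / √A) ^ ν : ℝ) : ℂ) * (besselJ ν (4 * π * √A) : ℂ) by
    push_cast; ring]
  refine h2.congr_fun fun l => ?_
  have hl : Poincare.lineIntegral ((ν + 1 + l : ℕ) : ℤ) 0 1 1 y =
      (-2 * π * I) ^ (ν + 1 + l) / (ν + l)! * ((1 : ℕ) : ℂ) ^ (ν + l) := by
    rw [lineIntegral_pow (by omega) 1 hy, show ν + 1 + l - 1 = ν + l by omega]
  rw [show (∫ u, F l u) = w ^ l / l ! * Poincare.lineIntegral ((ν + 1 + l : ℕ) : ℤ) 0 1 1 y from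
    integral_const_mul _ _, hl, show 4 * π * √A / 2 = 2 * π * √A by ring, add_comm l ν, hw,
    Nat.cast_one, one_pow, mul_one]
  push_cast
  have hAC : ((√A : ℝ) : ℂ) ^ 2 = A := by exact_mod_cast Real.sq_sqrt hA.le
  have hA0 : ((√A : ℝ) : ℂ) ≠ 0 := Complex.ofReal_ne_zero.2 hA'.ne'
  rw [← hAC]
  have hI : (-1 : ℂ) ^ l = I ^ (2 * l) := by rw [pow_mul, Complex.I_sq]
  rw [hI]
  simp only [div_pow, one_pow, mul_pow, neg_pow I, neg_pow (2 * (π : ℂ) * I), neg_mul,
    neg_pow (2 * (π : ℂ) * I * ((√A : ℝ) : ℂ) ^ 2), ← pow_mul]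
  field_simp
  ring_nf
  simp [pow_mul']

theorem integral_realProfile {k : ℕ} (hk : 3 ≤ k) {a : ℝ} (ha : 0 < a) {x : ℝ} (hx : 0 < x) {y : ℝ}
    (hy : 0 < y) :
    ∫ u, realProfile k a x y u = 2 * π * (-I) ^ k *
      (((√x / √a) ^ (k - 1) * besselJ (k - 1) (4 * π * √(a * x)) : ℝ) : ℂ) := by
  rw [integral_realProfile_scale k (by omega) a hx,
    integral_realProfile_one hk (mul_pos ha hx) (mul_pos hx hy)]
  have h : x ^ (k - 1) * (1 / √(a * x)) ^ (k - 1) = (√x / √a) ^ (k - 1) := by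
    rw [← mul_pow, Real.sqrt_mul ha.le]
    congr 1
    have h1 : √a ≠ 0 := (Real.sqrt_pos.2 ha).ne'
    have h2 : √x ≠ 0 := (Real.sqrt_pos.2 hx).ne'
    field_simp
    rw [Real.sq_sqrt hx.le]
  rw [← h]
  push_cast
  ring

theorem lineIntegral_eq_besselJ {k : ℕ} (hk : 3 ≤ k) {m n : ℕ} (hm : m ≠ 0) (hn : n ≠ 0) {c : ℕ}
    (hc : c ≠ 0) {y : ℝ} (hy : 0 < y) :
    Poincare.lineIntegral (k : ℤ) m n c y = 2 * π * (-I) ^ k *
      (((√n / √m) ^ (k - 1) * (c : ℝ) ^ (k - 1) *
        besselJ (k - 1) (4 * π * √((m : ℝ) * n) / c) : ℝ) : ℂ) := by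
  have hc0 : (0 : ℝ) < c := by exact_mod_cast hc.bot_lt
  have hm0 : (0 : ℝ) < m := by exact_mod_cast hm.bot_lt
  rw [Poincare.lineIntegral, profile_eq_realProfile,
    integral_realProfile hk (by positivity) (by exact_mod_cast hn.bot_lt) hy, Real.sqrt_div' _
      (by positivity), Real.sqrt_sq hc0.le, div_div_eq_mul_div, mul_div_right_comm, mul_pow,
    div_mul_eq_mul_div (m : ℝ), Real.sqrt_div' _ (by positivity), Real.sqrt_sq hc0.le]
  congr 4
  ring

end FA.PeterssonTrace

end
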