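import Fermat.Agent.VerticalSatoTate.Main

/-!
# Poincaré series as the level grows

The moduli are multiples of `N`, so `a_n(P_m) - 2 δ_{m n} = O(N ^ (-2))` in a fixed even weight
`k ≥ 4`, and the vertical Sato–Tate law holds in the level aspect.
-/

set_option autoImplicit false
set_option linter.style.haveILetI false

noncomputable section

namespace FA.PeterssonTrace

open UpperHalfPlane hiding I
open CongruenceSubgroup Filter VerticalSatoTate
open scoped MatrixGroups Real Topology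

variable {N : ℕ → ℕ} [∀ j, NeZero (N j)] {k : ℤ}

theorem tendsto_coeff_poincare_level (hN : Tendsto N atTop atTop) (hk : 4 ≤ k) (he : Even k)
    {m : ℕ} (hm : m ≠ 0) (n : ℕ) :
    Tendsto (fun j => (qExpansion 1 (Poincare.cuspForm (N j) (by omega : 3 ≤ k) hm)).coeff n) atTop
      (𝓝 (if m = n then 2 else 0)) := by
  rw [tendsto_iff_norm_sub_tendsto_zero]
  refine squeeze_zero (fun j => norm_nonneg _) (g := fun j => 2 * Real.exp (4 * π * n) * π *
    (∑' c : ℕ, ((c : ℝ) ^ 2)⁻¹) * (2 : ℝ) ^ (1 - (k : ℝ)) / (N j : ℝ) ^ 2) (fun j => ?_) ?_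
  · have h := norm_coeff_poincare_sub_le (N := N j) hk hm n
    rw [he.neg_one_zpow] at h
    rw [show (if m = n then (2 : ℂ) else 0) = (1 + 1) * if m = n then 1 else 0 by
      split <;> norm_num]
    exact h
  · exact Tendsto.const_div_atTop
      ((tendsto_pow_atTop two_ne_zero).comp (tendsto_natCast_atTop_atTop.comp hN)) _

theorem firstColumn_level {p : ℕ} (hp : p.Prime) (hN : Tendsto N atTop atTop) (hk : 4 ≤ k)
    (he : Even k) : FirstColumn (N := N) p (k := fun _ => k) fun _ => (by omega : 3 ≤ k) :=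
  fun i => by
  have h := tendsto_coeff_poincare_level hN hk he one_ne_zero (p ^ i)
  rcases Nat.eq_zero_or_pos i with rfl | hi
  · simpa using h
  · rw [if_neg (Ne.symm (Nat.one_lt_pow hi.ne' hp.one_lt).ne')] at h
    rwa [if_neg hi.ne']

omit [∀ j, NeZero (N j)]

theorem exists_eigenvalue_mem_level {p : ℕ} (hp : p.Prime) (hk : 4 ≤ k) (he : Even k) {a b : ℝ}
    (ha : -2 ≤ a) (hab : a < b) (hb : b ≤ 2) :
    ∃ N₀ : ℕ, ∀ (M : ℕ) [NeZero M] (hpM : ¬p ∣ M), N₀ ≤ M → ∃ μ ∈ Set.Ioo a b,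
      Module.End.HasEigenvalue (CuspForm.heckeTLin (N := M) k hp hpM)
        ((μ * normScale p k : ℝ) : ℂ) := by
  by_contra hneg
  push Not at hneg
  choose M hM hpM hle hno using fun j : ℕ => hneg j
  haveI := hM
  obtain ⟨j, μ, hμ, hev⟩ := exists_eigenvalue_mem_of hp hpM (fun _ => (by omega : 3 ≤ k))
    (firstColumn_level hp (tendsto_atTop_mono hle tendsto_id) hk he) ha hab hb
  exact hno j μ hμ hev

theorem exists_many_eigenvalues_level {p : ℕ} (hp : p.Prime) (hk : 4 ≤ k) (he : Even k) (r : ℕ) :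
    ∃ N₀ : ℕ, ∀ (M : ℕ) [NeZero M] (hpM : ¬p ∣ M), N₀ ≤ M →
      r ≤ (normEigenvalues (N := M) hp hpM k).ncard := by
  choose K hK using fun l : Fin r => exists_eigenvalue_mem_level hp hk he (interval_bounds l).1
    (interval_bounds l).2.1 (interval_bounds l).2.2
  obtain ⟨N₀, hN₀⟩ := (Set.finite_range K).bddAbove
  refine ⟨N₀, fun M _ hpM hle => le_ncard_of_mem_interval (finite_normEigenvalues hp hpM k) ?_⟩
  exact fun l => hK l M hpM ((hN₀ ⟨l, rfl⟩).trans hle)

end FA.PeterssonTrace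

end
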